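/-
P-CFT / [HASSE] row 945 HS-A (helper85): the cochain core of inflation-restriction in degree 2
with LEVEL tracking.

`inf_core_exact_lvl` is helper75's `Fermat.Agent.H75.Coh2.inf_core_exact` where
* the vanishing of `H¹(S, V)` is only required for 1-cocycles which are right-invariant under a
  fixed normal subgroup `N ≤ S` (the "level"), and
* the correcting 1-cochain `a` is right-invariant under `N`.
-/
import Fermat.Agent.H75.Coh2InfResCore

set_option autoImplicit false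

namespace Fermat.Agent.H85.Hasse

open Fermat.Agent.H75.Coh2

section core

variable {k : Type*} {G : Type*} {V : Type*} [CommRing k] [Group G] [AddCommGroup V] [Module k V]
  (ρ : Representation k G V)

/-- Cochain-level core of exactness of inflation-restriction in degree 2, level form. -/
theorem inf_core_exact_lvl (S N : Subgroup G) [S.Normal] [N.Normal] (hNS : N ≤ S)
    (hH1 : ∀ f : S → V, (∀ s t : S, f (s * t) = ρ s (f t) + f s) →
      (∀ s n : S, (n : G) ∈ N → f (s * n) = f s) →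
      ∃ z : V, ∀ s : S, f s = ρ s z - z)
    (c : G × G → V)
    (hc : ∀ g h j : G, c (g * h, j) + c (g, h) = ρ g (c (h, j)) + c (g, h * j))
    (hcN : ∀ g h, ∀ n ∈ N, ∀ m ∈ N, c (g * n, h * m) = c (g, h))
    (b : G → V) (hb : ∀ s ∈ S, ∀ t ∈ S, c (s, t) = ρ s (b t) - b (s * t) + b s)
    (hbN : ∀ g, ∀ n ∈ N, b (g * n) = b g) (hbρ : ∀ g, ∀ n ∈ N, ρ n (b g) = b g) :
    ∃ (a : G → V) (c' : G × G → V),
      (∀ g h, c' (g, h) = c (g, h) + (ρ g (a h) - a (g * h) + a g)) ∧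
      (∀ g h j : G, c' (g * h, j) + c' (g, h) = ρ g (c' (h, j)) + c' (g, h * j)) ∧
      (∀ g h, ∀ s ∈ S, c' (g * s, h) = c' (g, h)) ∧
      (∀ g h, ∀ s ∈ S, c' (g, h * s) = c' (g, h)) ∧
      (∀ g h, ∀ s ∈ S, ρ s (c' (g, h)) = c' (g, h)) ∧
      (∀ g, ∀ n ∈ N, a (g * n) = a g) := by
  classical
  -- Step 1: make the restriction to `S` vanish
  let c₁ : G × G → V := fun p => c p + (ρ p.1 ((-b) p.2) - (-b) (p.1 * p.2) + (-b) p.1)
  have hc₁ : ∀ g h j : G, c₁ (g * h, j) + c₁ (g, h) = ρ g (c₁ (h, j)) + c₁ (g, h * j) :=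
    fun g h j => cocycle_add_cobound ρ c hc (-b) g h j
  have hc₁S : ∀ s ∈ S, ∀ t ∈ S, c₁ (s, t) = 0 := by
    intro s hs t ht
    simp only [c₁, hb s hs t ht, Pi.neg_apply, map_neg]
    abel
  -- `c₁` is `N`-invariant in both variables
  have hc₁N : ∀ g h, ∀ n ∈ N, ∀ m ∈ N, c₁ (g * n, h * m) = c₁ (g, h) := by
    intro g h n hn m hm
    have e1 : g * n * (h * m) = g * h * (h⁻¹ * n * h * m) := by group
    have e2 : h⁻¹ * n * h * m ∈ N := N.mul_mem (Subgroup.Normal.conj_mem' ‹_› n hn h) hm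
    simp only [c₁, Pi.neg_apply, map_neg, hcN g h n hn m hm, hbN h m hm, hbN g n hn, e1,
      hbN (g * h) _ e2, map_mul, Module.End.mul_apply, hbρ h n hn]
  have hc₁N1 : ∀ g h, ∀ n ∈ N, c₁ (g * n, h) = c₁ (g, h) := by
    intro g h n hn
    have := hc₁N g h n hn 1 N.one_mem
    rwa [mul_one] at this
  have hc₁N2 : ∀ g h, ∀ m ∈ N, c₁ (g, h * m) = c₁ (g, h) := by
    intro g h m hm
    have := hc₁N g h 1 N.one_mem m hm
    rwa [mul_one] at this
  -- Step 2: choose the correcting elements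
  have hex : ∀ g : G, ∃ x : V, ∀ m ∈ S, ρ m x - x = c₁ (g, g⁻¹ * m * g) - c₁ (m, g) := by
    intro g
    obtain ⟨z, hz⟩ := hH1 (fun m => c₁ (g, g⁻¹ * m * g) - c₁ (m, g))
      (fun s t => twisted_cocycle ρ S c₁ hc₁ hc₁S g s t s.2 t.2)
      (fun s n hn => by
        have e1 : g⁻¹ * ((s : G) * (n : G)) * g = g⁻¹ * s * g * (g⁻¹ * n * g) := by group
        simp only [Subgroup.coe_mul, e1]
        rw [hc₁N2 _ _ _ (Subgroup.Normal.conj_mem' ‹_› (n : G) hn g), hc₁N1 _ _ _ hn])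
    exact ⟨z, fun m hm => (hz ⟨m, hm⟩).symm⟩
  choose a₀ ha₀ using hex
  -- Step 3: coset representatives
  let r : G → G := fun g => Quotient.out (QuotientGroup.mk g : G ⧸ S)
  have hr1 : ∀ g, (r g)⁻¹ * g ∈ S := by
    intro g
    have h := QuotientGroup.out_eq' (QuotientGroup.mk g : G ⧸ S)
    rwa [QuotientGroup.eq] at h
  have hr2 : ∀ g, ∀ s ∈ S, r (g * s) = r g := by
    intro g s hs
    have : (QuotientGroup.mk (g * s) : G ⧸ S) = QuotientGroup.mk g := by
      rw [QuotientGroup.eq]; simpa using S.inv_mem hs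
    simp only [r, this]
  have hr3 : ∀ g, r g * ((r g)⁻¹ * g) = g := fun g => by group
  let a₁ : G → V := fun g => a₀ (r g) + c₁ (r g, (r g)⁻¹ * g)
  have hi : ∀ g, ∀ n ∈ S, a₁ (g * n) = a₁ g + c₁ (g, n) := by
    intro g n hn
    have := step_i ρ S c₁ hc₁ hc₁S (r g) (a₀ (r g)) ((r g)⁻¹ * g) n (hr1 g) hn
    rw [hr3] at this
    simp only [a₁, hr2 g n hn, ← mul_assoc]
    rw [mul_assoc] at this
    rw [← mul_assoc] at this
    exact this
  have hii : ∀ g, ∀ m ∈ S, ρ m (a₁ g) - a₁ g = c₁ (g, g⁻¹ * m * g) - c₁ (m, g) := by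
    intro g m hm
    have := step_ii ρ S c₁ hc₁ hc₁S (r g) (a₀ (r g)) (ha₀ (r g)) ((r g)⁻¹ * g) m (hr1 g) hm
    rw [hr3] at this
    exact this
  have hκ : ∀ m ∈ S, ρ m (a₁ 1) = a₁ 1 := by
    intro m hm
    have := hii 1 m hm
    rw [hc₁S 1 S.one_mem _ (by simpa using hm), hc₁S m hm 1 S.one_mem, sub_zero,
      sub_eq_zero] at this
    exact this
  -- level of `a₁`
  have ha₁N : ∀ g, ∀ n ∈ N, a₁ (g * n) = a₁ g := by
    intro g n hn
    simp only [a₁, hr2 g n (hNS hn), ← mul_assoc]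
    rw [hc₁N2 _ _ _ hn]
  -- Step 4: the corrected cocycle
  let a : G → V := fun g => a₁ g - a₁ 1
  have haS : ∀ s ∈ S, a s = 0 := by
    intro s hs
    have := hi 1 s hs
    rw [one_mul, hc₁S 1 S.one_mem s hs, add_zero] at this
    simp only [a, this, sub_self]
  let c' : G × G → V := fun p => c₁ p + (ρ p.1 (a p.2) - a (p.1 * p.2) + a p.1)
  have hc' : ∀ g h j : G, c' (g * h, j) + c' (g, h) = ρ g (c' (h, j)) + c' (g, h * j) :=
    fun g h j => cocycle_add_cobound ρ c₁ hc₁ a g h j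
  have hv2 : ∀ g, ∀ s ∈ S, c' (g, s) = 0 := by
    intro g s hs
    simp only [c', haS s hs, map_zero, a, hi g s hs]
    abel
  have hv1 : ∀ g, ∀ s ∈ S, c' (s, g) = 0 := by
    intro g s hs
    have e : s * g = g * (g⁻¹ * s * g) := by group
    have h1 := hi g (g⁻¹ * s * g) (Subgroup.Normal.conj_mem' ‹_› s hs g)
    rw [← e] at h1
    have h2 := hii g s hs
    simp only [c', haS s hs, a, h1, map_sub, hκ s hs]
    linear_combination (norm := abel) h2
  obtain ⟨i1, i2, i3⟩ := inflated_of_vanishing ρ S c' hc' hv1 hv2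
  refine ⟨fun g => a g - b g, c', ?_, hc', i1, i2, i3, ?_⟩
  · intro g h
    simp only [c', c₁, Pi.neg_apply, map_neg, map_sub]
    abel
  · intro g n hn
    simp only [a, ha₁N g n hn, hbN g n hn]

end core

end Fermat.Agent.H85.Hasse
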