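/-
P-CFT / [HASSE] row 945 HS-A (helper85): `SplitInflStatement`.

Inflation-restriction in degree 2, level form: a Brauer cocycle of `G_K` which is split by the
finite Galois extension `M / K` is cohomologous, through level cochains, to the inflation of a
2-cocycle of `Gal(M/K)` with values in `Mˣ`.

Proof: the level form `inf_core_exact_lvl` of helper75's cochain core, Hilbert 90 for level
cocycles (helper57 `h90Lvl`) and the descent of helper75's `inf2Lvl` / `lvl2Finite`.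
-/
import Fermat.Agent.H97.Hasse.Interfaces
import Fermat.Agent.H75.Inf2Tower
import Fermat.Agent.H57.CFT.H90Lvl
import Fermat.Agent.H85.Hasse.InfCoreLvl

set_option autoImplicit false

namespace Fermat.Agent.H85.Hasse

open Fermat.Agent.H13.Cft Fermat.Agent.H78.CFT Fermat.Agent.H97.Hasse Fermat.Agent.H75.Inf2
  groupCohomology

attribute [local instance] Fermat.Agent.H75.Inf2.isGalois_rat_Qb

/-- A level of `G_K` fixing a given finite subset of `ℚ̄`. -/
theorem hsa_exists_lvl_fixing (K : IntermediateField ℚ Qb) (T : Set Qb) (hT : T.Finite) :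
    ∃ N ∈ (lvlE K).sets, ∀ g ∈ N, ∀ t ∈ T, ((g : K.fixingSubgroup) : Qb ≃ₐ[ℚ] Qb) t = t := by
  classical
  have : Finite T := hT
  let K0 : IntermediateField K Qb := IntermediateField.adjoin K T
  have hK0 : FiniteDimensional K K0 :=
    IntermediateField.finiteDimensional_adjoin (fun x _ => Algebra.IsIntegral.isIntegral x)
  let L : IntermediateField K Qb := IntermediateField.normalClosure K K0 Qb
  have hLn : Normal K L := inferInstance
  have hLf : FiniteDimensional K L := inferInstance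
  refine ⟨(resEF K L).ker, ker_resEF_mem_lvl K L, fun g hg t ht => ?_⟩
  have hTL : t ∈ L :=
    (IntermediateField.le_normalClosure K0) (IntermediateField.subset_adjoin K T ht)
  exact (resEF_eq_one_iff K L g).1 (MonoidHom.mem_ker.1 hg) ⟨t, hTL⟩

/-- An automorphism fixing a `ℚ`-basis of `F₀` fixes `F₀`. -/
theorem hsa_mem_fixingSubgroup_of_basis (F0 : IntermediateField ℚ Qb) [FiniteDimensional ℚ F0]
    (g : Qb ≃ₐ[ℚ] Qb)
    (hg : ∀ i, g ((Module.finBasis ℚ F0 i : F0) : Qb) = ((Module.finBasis ℚ F0 i : F0) : Qb)) :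
    g ∈ F0.fixingSubgroup := by
  rw [IntermediateField.mem_fixingSubgroup_iff]
  intro x hx
  have hx' : (⟨x, hx⟩ : F0) = ∑ i, ((Module.finBasis ℚ F0).repr ⟨x, hx⟩ i) •
      Module.finBasis ℚ F0 i := ((Module.finBasis ℚ F0).sum_repr _).symm
  have hx'' : x = ∑ i, ((Module.finBasis ℚ F0).repr ⟨x, hx⟩ i) •
      ((Module.finBasis ℚ F0 i : F0) : Qb) := by
    have := congrArg (fun y : F0 => (y : Qb)) hx'
    simp only [IntermediateField.coe_sum, IntermediateField.coe_smul] at this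
    exact this
  rw [hx'']
  simp only [map_sum, map_rat_smul, hg]

/-- A level of `G_K` inside the fixing subgroup of a finite extension `F₀ / ℚ`. -/
theorem hsa_exists_lvl_le_fixing (K : IntermediateField ℚ Qb) (F0 : IntermediateField ℚ Qb)
    [FiniteDimensional ℚ F0] :
    ∃ N ∈ (lvlE K).sets, ∀ g ∈ N, ((g : K.fixingSubgroup) : Qb ≃ₐ[ℚ] Qb) ∈ F0.fixingSubgroup := by
  obtain ⟨N, hN, hNT⟩ := hsa_exists_lvl_fixing K
    (Set.range (fun i => ((Module.finBasis ℚ F0 i : F0) : Qb))) (Set.finite_range _)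
  exact ⟨N, hN, fun g hg => hsa_mem_fixingSubgroup_of_basis F0 _ (fun i => hNT g hg _ ⟨i, rfl⟩)⟩

/-- A function right-invariant under a subgroup of finite index has finite range. -/
theorem hsa_finite_range {G : Type} [Group G] {X : Type} (N : Subgroup G) [N.FiniteIndex]
    (x : G → X) (hinv : ∀ g, ∀ n ∈ N, x (g * n) = x g) : (Set.range x).Finite := by
  have h := finite_range_of_invariant N (fun p : G × G => x p.1)
    (fun g _ n hn _ _ => hinv g n hn)
  refine h.subset ?_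
  rintro _ ⟨g, rfl⟩
  exact ⟨(g, 1), rfl⟩

set_option synthInstance.maxHeartbeats 400000 in
set_option maxHeartbeats 1600000 in
/-- **[HS-A] SplitInfl.** -/
theorem splitInfl : SplitInflStatement := by
  intro K M _ _ c hc hsplit
  classical
  obtain ⟨x, ⟨Nx, ⟨hNxn, hNxf, F1, hF1, hF1N⟩, hxN⟩, hx⟩ := hsplit
  obtain ⟨Nc, hNc, hcN⟩ := hc.lvl
  have hcoc := hc.cocycle
  let M' : IntermediateField ℚ Qb := M.restrictScalars ℚ
  have hle : M'.fixingSubgroup ≤ K.fixingSubgroup := fixingSubgroup_restrictScalars_le K M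
  let ι : M'.fixingSubgroup →* K.fixingSubgroup := Subgroup.inclusion hle
  let S : Subgroup K.fixingSubgroup := (resEF K M).ker
  have hSmem : ∀ s, s ∈ S ↔ resEF K M s = 1 := fun s => MonoidHom.mem_ker
  have hιS : ∀ s, ι s ∈ S := fun s => (hSmem _).2 (resEF_inclusion K M s)
  have hSM' : ∀ s ∈ S, ((s : K.fixingSubgroup) : Qb ≃ₐ[ℚ] Qb) ∈ M'.fixingSubgroup :=
    fun s hs => mem_fixingSubgroup_of_resEF K M s ((hSmem s).1 hs)
  -- the levels
  have := hF1
  have := hNxf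
  have hT : ((fun u : Qbˣ => (u : Qb)) '' Set.range x).Finite :=
    (hsa_finite_range Nx x hxN).image _
  obtain ⟨N₁, hN₁, hN₁F⟩ := hsa_exists_lvl_le_fixing K F1
  obtain ⟨N₂, hN₂, hN₂T⟩ := hsa_exists_lvl_fixing K _ hT
  obtain ⟨N₄, hN₄, hN₄le⟩ := (lvlE K).directed _ hNc _ hN₁
  obtain ⟨N₅, hN₅, hN₅le⟩ := (lvlE K).directed _ hN₂ _ (ker_resEF_mem_lvl K M)
  obtain ⟨N, hN, hNle⟩ := (lvlE K).directed _ hN₄ _ hN₅
  have hNn : N.Normal := (lvlE K).normal N hN
  have hNNc : N ≤ Nc := fun g hg => (hN₄le (hNle hg).1).1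
  have hNN₁ : N ≤ N₁ := fun g hg => (hN₄le (hNle hg).1).2
  have hNN₂ : N ≤ N₂ := fun g hg => (hN₅le (hNle hg).2).1
  have hNS : N ≤ S := fun g hg => (hN₅le (hNle hg).2).2
  -- the extension of `x` to `G_K`
  let bt : K.fixingSubgroup → Qbˣ := fun g =>
    if h : g ∈ S then x ⟨(g : Qb ≃ₐ[ℚ] Qb), hSM' g h⟩ else 1
  have hbtS : ∀ s (hs : s ∈ S), bt s = x ⟨(s : Qb ≃ₐ[ℚ] Qb), hSM' s hs⟩ := fun s hs => dif_pos hs
  have hbtN : ∀ g, ∀ n ∈ N, bt (g * n) = bt g := by
    intro g n hn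
    by_cases hg : g ∈ S
    · have hgn : g * n ∈ S := S.mul_mem hg (hNS hn)
      rw [hbtS _ hgn, hbtS _ hg]
      have hnx : (⟨(n : Qb ≃ₐ[ℚ] Qb), hSM' n (hNS hn)⟩ : M'.fixingSubgroup) ∈ Nx :=
        hF1N (Subgroup.mem_comap.2 (hN₁F n (hNN₁ hn)))
      have := hxN ⟨(g : Qb ≃ₐ[ℚ] Qb), hSM' g hg⟩ _ hnx
      rw [← this]
      rfl
    · have hgn : g * n ∉ S := fun h => hg (by
        have := S.mul_mem h (S.inv_mem (hNS hn))
        simpa using this)
      simp only [bt, dif_neg hg, dif_neg hgn]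
  have hbtρ : ∀ g, ∀ n ∈ N, actU ((n : K.fixingSubgroup) : Qb ≃ₐ[ℚ] Qb) (bt g) = bt g := by
    intro g n hn
    by_cases hg : g ∈ S
    · rw [hbtS _ hg]
      apply Units.ext
      exact hN₂T n (hNN₂ hn) _ ⟨_, ⟨_, rfl⟩, rfl⟩
    · simp only [bt, dif_neg hg, map_one]
  -- additive notation
  let ca : K.fixingSubgroup × K.fixingSubgroup → Additive Qbˣ := fun p => Additive.ofMul (c p)
  let ba : K.fixingSubgroup → Additive Qbˣ := fun g => Additive.ofMul (bt g)
  have hca : ∀ g h j, ca (g * h, j) + ca (g, h) = repU K g (ca (h, j)) + ca (g, h * j) :=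
    fun g h j => congrArg Additive.ofMul (hcoc g h j)
  have hcaN : ∀ g h, ∀ n ∈ N, ∀ m ∈ N, ca (g * n, h * m) = ca (g, h) :=
    fun g h n hn m hm => congrArg Additive.ofMul (hcN g h n (hNNc hn) m (hNNc hm))
  have hba : ∀ s ∈ S, ∀ t ∈ S, ca (s, t) = repU K s (ba t) - ba (s * t) + ba s := by
    intro s hs t ht
    have h1 := hx (⟨(s : Qb ≃ₐ[ℚ] Qb), hSM' s hs⟩, ⟨(t : Qb ≃ₐ[ℚ] Qb), hSM' t ht⟩)
    have h2 : resCochain₂ (le_restrictScalars M) c
        (⟨(s : Qb ≃ₐ[ℚ] Qb), hSM' s hs⟩, ⟨(t : Qb ≃ₐ[ℚ] Qb), hSM' t ht⟩) = c (s, t) := rfl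
    rw [h2] at h1
    have h3 : bt (s * t) = x (⟨(s : Qb ≃ₐ[ℚ] Qb), hSM' s hs⟩ * ⟨(t : Qb ≃ₐ[ℚ] Qb), hSM' t ht⟩) := by
      rw [hbtS _ (S.mul_mem hs ht)]
      rfl
    simp only [ca, ba, repU_apply, ← h1, mulD₁E, hbtS s hs, hbtS t ht, h3]
    rw [ofMul_div, ofMul_mul]
    abel
  have hbaN : ∀ g, ∀ n ∈ N, ba (g * n) = ba g :=
    fun g n hn => congrArg Additive.ofMul (hbtN g n hn)
  have hbaρ : ∀ g, ∀ n ∈ N, repU K n (ba g) = ba g :=
    fun g n hn => congrArg Additive.ofMul (hbtρ g n hn)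
  -- Hilbert 90
  have hH1 : ∀ f : S → Additive Qbˣ, (∀ s t : S, f (s * t) = repU K s (f t) + f s) →
      (∀ s n : S, (n : K.fixingSubgroup) ∈ N → f (s * n) = f s) →
      ∃ z : Additive Qbˣ, ∀ s : S, f s = repU K s z - z := by
    intro f hf hfN
    let xF : M'.fixingSubgroup → Qbˣ := fun s => Additive.toMul (f ⟨ι s, hιS s⟩)
    have hxF_lvl : IsLvlFun₁ (lvlE M') xF := by
      refine ⟨N.comap ι, comap_incl_mem_lvl (le_restrictScalars M) hN, fun g n hn => ?_⟩
      have := hfN ⟨ι g, hιS g⟩ ⟨ι n, hιS n⟩ (Subgroup.mem_comap.1 hn)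
      show Additive.toMul (f ⟨ι (g * n), hιS (g * n)⟩) = Additive.toMul (f ⟨ι g, hιS g⟩)
      rw [← this]
      rfl
    have hxF_coc : IsMulCocycle₁E M' xF := by
      intro s t
      have := hf ⟨ι s, hιS s⟩ ⟨ι t, hιS t⟩
      have h2 := congrArg Additive.toMul this
      exact h2
    obtain ⟨z, hz⟩ := Fermat.Agent.H57.CFT.h90Lvl M' xF hxF_lvl hxF_coc
    refine ⟨Additive.ofMul z, fun s => ?_⟩
    have h1 := hz ⟨((s : K.fixingSubgroup) : Qb ≃ₐ[ℚ] Qb), hSM' s s.2⟩
    have h2 : (⟨ι ⟨((s : K.fixingSubgroup) : Qb ≃ₐ[ℚ] Qb), hSM' s s.2⟩, hιS _⟩ : S) = s :=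
      Subtype.ext (Subtype.ext rfl)
    simp only [xF, h2] at h1
    have h3 := congrArg Additive.ofMul h1
    rw [ofMul_toMul] at h3
    rw [h3]
    rfl
  obtain ⟨a, c', hc'1, hc'2, hc'3, hc'4, hc'5, haN⟩ :=
    inf_core_exact_lvl (repU K) S N hNS hH1 ca hca hcaN ba hba hbaN hbaρ
  -- descent
  have hmem : ∀ p, ((Additive.toMul (c' p) : Qbˣ) : Qb) ∈ M := fun p =>
    mem_of_fixed K M _ (fun s hs => by
      have := hc'5 p.1 p.2 s ((hSmem s).2 ((resEF_eq_one_iff K M s).2 hs))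
      exact congrArg (fun u : Additive Qbˣ => ((Additive.toMul u : Qbˣ) : Qb)) this)
  have hsurj := resEF_surjective K M
  let lift : (M ≃ₐ[K] M) → K.fixingSubgroup := Function.surjInv hsurj
  have hlift : ∀ σ, resEF K M (lift σ) = σ := Function.surjInv_eq hsurj
  have hcongr : ∀ g g' h h' : K.fixingSubgroup, resEF K M g = resEF K M g' →
      resEF K M h = resEF K M h' → c' (g', h') = c' (g, h) := by
    intro g g' h h' hg hh
    have h1 : g⁻¹ * g' ∈ S := (hSmem _).2 (by rw [map_mul, map_inv, hg, inv_mul_cancel])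
    have h2 : h⁻¹ * h' ∈ S := (hSmem _).2 (by rw [map_mul, map_inv, hh, inv_mul_cancel])
    have e1 := hc'3 g (h * (h⁻¹ * h')) _ h1
    have e2 := hc'4 g h _ h2
    rw [mul_inv_cancel_left, mul_inv_cancel_left] at e1
    rw [mul_inv_cancel_left] at e2
    rw [e1, e2]
  let c₁ : (M ≃ₐ[K] M) × (M ≃ₐ[K] M) → Mˣ := fun p =>
    unitOfMem M (Additive.toMul (c' (lift p.1, lift p.2))) (hmem _)
  have hinfl : ∀ g h : K.fixingSubgroup,
      Units.map (algebraMap M Qb : M →* Qb) (c₁ (resEF K M g, resEF K M h)) =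
        Additive.toMul (c' (g, h)) := by
    intro g h
    simp only [c₁, map_unitOfMem]
    exact congrArg Additive.toMul (hcongr g _ h _ (hlift _).symm (hlift _).symm)
  refine ⟨c₁, ?_, ?_⟩
  · intro σ τ υ
    have hinj : Function.Injective (Units.map (algebraMap M Qb : M →* Qb)) :=
      Units.map_injective (algebraMap M Qb).injective
    apply hinj
    have e1 : resEF K M (lift σ * lift τ) = σ * τ := by rw [map_mul, hlift, hlift]
    have e2 : resEF K M (lift τ * lift υ) = τ * υ := by rw [map_mul, hlift, hlift]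
    have a1 := hinfl (lift σ * lift τ) (lift υ)
    have a2 := hinfl (lift σ) (lift τ)
    have a3 := hinfl (lift τ) (lift υ)
    have a4 := hinfl (lift σ) (lift τ * lift υ)
    rw [e1, hlift] at a1
    rw [hlift, hlift] at a2 a3
    rw [hlift, e2] at a4
    have a5 : Units.map (algebraMap M Qb : M →* Qb) (σ • c₁ (τ, υ)) =
        actU (lift σ : Qb ≃ₐ[ℚ] Qb) (Additive.toMul (c' (lift τ, lift υ))) := by
      rw [← a3]
      apply Units.ext
      show ((σ (c₁ (τ, υ) : M) : M) : Qb) = (lift σ : Qb ≃ₐ[ℚ] Qb) ((c₁ (τ, υ) : M) : Qb)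
      rw [← resEF_apply, hlift]
    rw [map_mul, map_mul, a1, a2, a5, a4]
    exact congrArg Additive.toMul (hc'2 (lift σ) (lift τ) (lift υ))
  · refine ⟨fun g => (Additive.toMul (a g))⁻¹, ⟨N, hN, fun g n hn => ?_⟩, ?_⟩
    · show (Additive.toMul (a (g * n)))⁻¹ = (Additive.toMul (a g))⁻¹
      rw [haN g n hn]
    · rintro ⟨g, h⟩
      have h1 := congrArg Additive.toMul (hc'1 g h)
      have h2 := hinfl g h
      have h3 : inflE K M c₁ (g, h) = Additive.toMul (c' (g, h)) := h2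
      show mulD₁E K (fun g => (Additive.toMul (a g))⁻¹) (g, h) = c (g, h) / inflE K M c₁ (g, h)
      rw [h3, h1]
      have hrep : repU K g (a h) =
          Additive.ofMul (actU (g : Qb ≃ₐ[ℚ] Qb) (Additive.toMul (a h))) := rfl
      apply Additive.ofMul.injective
      simp only [mulD₁E, ca, map_inv, ofMul_mul, ofMul_div, ofMul_toMul, ofMul_inv, hrep]
      abel

end Fermat.Agent.H85.Hasse
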